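import Mathlib.Data.Matrix.Mul
import Mathlib.Algebra.Order.BigOperators.Group.Finset
import Mathlib.Algebra.Order.BigOperators.Ring.Finset
import Mathlib.Algebra.BigOperators.Fin
import Mathlib.Tactic.Linarith
import Mathlib.Tactic.Ring
import Mathlib.Tactic.LinearCombination

/-!
# Kneser's example

The zeros of `x₀ ^ 2 - ∑ (x_(k+1) - c x_k) ^ 2` grow like `c ^ n` along the coordinates.
-/

set_option autoImplicit false

noncomputable section

open Finset Matrix

namespace FA.SmallZeros

variable {n : ℕ}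

/-- The `k`-th linear form. -/
def kneserVec (c : ℤ) (k : Fin n) : Fin (n + 1) → ℤ :=
  Pi.single k.succ 1 - Pi.single k.castSucc c

/-- Kneser's matrix. -/
def kneserMat (n : ℕ) (c : ℤ) : Matrix (Fin (n + 1)) (Fin (n + 1)) ℤ := fun i j =>
  (Pi.single (0 : Fin (n + 1)) (1 : ℤ) : Fin (n + 1) → ℤ) i *
      (Pi.single (0 : Fin (n + 1)) (1 : ℤ) : Fin (n + 1) → ℤ) j -
    ∑ k : Fin n, kneserVec c k i * kneserVec c k j

theorem kneser_form (c : ℤ) (x : Fin (n + 1) → ℤ) :
    x ⬝ᵥ kneserMat n c *ᵥ x = x 0 ^ 2 - ∑ k : Fin n, (x k.succ - c * x k.castSucc) ^ 2 := by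
  have hv : ∀ k : Fin n, ∑ i, kneserVec c k i * x i = x k.succ - c * x k.castSucc := fun k => by
    simp [kneserVec, sub_mul, sum_sub_distrib, Pi.single_apply]
  have h0 : ∑ i, (Pi.single (0 : Fin (n + 1)) (1 : ℤ) : Fin (n + 1) → ℤ) i * x i = x 0 := by
    simp [Pi.single_apply]
  simp only [dotProduct, mulVec, kneserMat, sub_mul, mul_sub, sum_sub_distrib, sum_mul, mul_sum]
  congr 1
  · rw [pow_two]
    nth_rewrite 1 [← h0]
    nth_rewrite 1 [← h0]
    rw [sum_mul_sum]
    exact Finset.sum_congr rfl fun i _ => Finset.sum_congr rfl fun j _ => by ring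
  · conv_lhs => enter [2, i]; rw [sum_comm]
    rw [sum_comm]
    refine Finset.sum_congr rfl fun k _ => ?_
    rw [← hv k, pow_two, sum_mul_sum]
    exact Finset.sum_congr rfl fun i _ => Finset.sum_congr rfl fun j _ => by ring

theorem kneser_entry (c : ℤ) (hc : 2 ≤ c) (i j : Fin (n + 1)) :
    |kneserMat n c i j| ≤ 1 + c * (c + 1) := by
  simp only [kneserMat]
  refine (abs_sub _ _).trans (add_le_add ?_ ((abs_sum_le_sum_abs _ _).trans ?_))
  · rw [abs_mul]
    rcases eq_or_ne i 0 with rfl | hi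
    · rcases eq_or_ne j 0 with rfl | hj <;> simp [*]
    · simp [hi]
  have hb : ∀ (k : Fin n) (l : Fin (n + 1)), |kneserVec c k l| ≤
      (if l = k.succ then 1 else 0) + (if l = k.castSucc then c else 0) := fun k l => by
    have hne : k.castSucc ≠ k.succ := (Fin.castSucc_lt_succ (i := k)).ne
    simp only [kneserVec, Pi.sub_apply, Pi.single_apply]
    split_ifs with h1 h2 h2
    · exact absurd (h2.symm.trans h1) hne
    · simp
    · simp [abs_of_nonneg (show (0 : ℤ) ≤ c by omega)]
    · simp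
  have hmax : ∀ (k : Fin n) (l : Fin (n + 1)), |kneserVec c k l| ≤ c := fun k l => by
    have hne : k.castSucc ≠ k.succ := (Fin.castSucc_lt_succ (i := k)).ne
    refine (hb k l).trans ?_
    split_ifs with h1 h2 h2
    · exact absurd (h2.symm.trans h1) hne
    · omega
    · simp
    · omega
  have hcol : ∑ k : Fin n, |kneserVec c k i| ≤ 1 + c := by
    refine (sum_le_sum fun k _ => hb k i).trans ?_
    rw [sum_add_distrib]
    refine add_le_add ?_ ?_
    · induction i using Fin.cases with
      | zero => simp [(Fin.succ_ne_zero _).symm]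
      | succ i => simp [Fin.succ_inj]
    · induction i using Fin.lastCases with
      | last => simp [(Fin.castSucc_ne_last _).symm]; omega
      | cast i => simp [Fin.castSucc_inj]
  calc ∑ k : Fin n, |kneserVec c k i * kneserVec c k j| ≤ ∑ k : Fin n, |kneserVec c k i| * c :=
        sum_le_sum fun k _ => by
          rw [abs_mul]
          exact mul_le_mul_of_nonneg_left (hmax k j) (abs_nonneg _)
    _ = (∑ k : Fin n, |kneserVec c k i|) * c := (sum_mul _ _ _).symm
    _ ≤ c * (c + 1) := by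
        refine (mul_le_mul_of_nonneg_right hcol (by omega)).trans_eq ?_
        ring

theorem kneser_isotropic (hn : 1 ≤ n) (c : ℤ) :
    ∃ x : Fin (n + 1) → ℤ, x ≠ 0 ∧ x ⬝ᵥ kneserMat n c *ᵥ x = 0 := by
  obtain ⟨x, hx⟩ : ∃ x : Fin (n + 1) → ℤ,
      x = fun i : Fin (n + 1) => if (i : ℕ) = 0 then 1 else (c + 1) * c ^ ((i : ℕ) - 1) := ⟨_, rfl⟩
  refine ⟨x, fun h => by simpa [hx] using congrFun h 0, ?_⟩
  rw [kneser_form, sum_eq_single ⟨0, hn⟩ (fun k _ hk => ?_) fun h => absurd (mem_univ _) h]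
  · simp [hx]
  · have hk0 : (k : ℕ) ≠ 0 := fun h => hk (Fin.ext h)
    obtain ⟨l, hl⟩ : ∃ l, (k : ℕ) = l + 1 := ⟨(k : ℕ) - 1, by omega⟩
    simp only [hx, Fin.val_succ, Fin.val_castSucc, hl]
    simp
    ring

theorem kneser_growth (c : ℤ) (hc : 2 ≤ c) {x : Fin (n + 1) → ℤ} (hx : x ≠ 0)
    (h : x ⬝ᵥ kneserMat n c *ᵥ x = 0) : (c - 1) ^ n ≤ |x (Fin.last n)| := by
  rw [kneser_form, sub_eq_zero] at h
  have hy : ∀ k : Fin n, |x k.succ - c * x k.castSucc| ≤ |x 0| := fun k => by
    refine abs_le_of_sq_le_sq ?_ (abs_nonneg _)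
    rw [sq_abs, h]
    exact single_le_sum (f := fun k : Fin n => (x k.succ - c * x k.castSucc) ^ 2)
      (fun k _ => sq_nonneg _) (mem_univ k)
  have h0 : x 0 ≠ 0 := fun h0 => hx <| funext fun i => by
    induction i using Fin.induction with
    | zero => exact h0
    | succ k ih =>
      have := hy k
      rw [h0, abs_zero, abs_nonpos_iff, ih, Pi.zero_apply, mul_zero, sub_zero] at this
      exact this
  have hgrow : ∀ i : Fin (n + 1), (c - 1) ^ (i : ℕ) * |x 0| ≤ |x i| := by
    intro i
    induction i using Fin.induction with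
    | zero => simp
    | succ k ih =>
      have h1 := hy k
      have h2 : |x 0| ≤ |x k.castSucc| :=
        (le_mul_of_one_le_left (abs_nonneg _) (one_le_pow₀ (by omega))).trans ih
      have h3 : c * |x k.castSucc| ≤ |x k.succ| + |x k.succ - c * x k.castSucc| := by
        have := abs_sub (x k.succ) (x k.succ - c * x k.castSucc)
        rwa [sub_sub_cancel, abs_mul, abs_of_nonneg (by omega : (0 : ℤ) ≤ c)] at this
      rw [Fin.val_succ, pow_succ]
      have h4 : (c - 1) * ((c - 1) ^ (k.castSucc : ℕ) * |x 0|) ≤ (c - 1) * |x k.castSucc| :=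
        mul_le_mul_of_nonneg_left ih (by omega)
      rw [Fin.val_castSucc] at h4
      linarith
  refine le_trans (le_mul_of_one_le_right (pow_nonneg (by omega) _) ?_) (hgrow (Fin.last n))
  exact Int.one_le_abs h0

end FA.SmallZeros

end
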