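import Fermat.Agent.SmallZeros.Holzer
import Mathlib.Data.Nat.Sqrt
import Mathlib.NumberTheory.SumTwoSquares
import Mathlib.Combinatorics.Pigeonhole
import Mathlib.Data.Fintype.Pigeonhole
import Mathlib.Data.Fintype.BigOperators

/-!
# Legendre's theorem

The three roots define a congruence lattice of index `a b c` on which the form is a multiple of
`a b c`; pigeonholing in a box leaves only the values `0` and `a b c`.
-/

set_option autoImplicit false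

noncomputable section

namespace FA.SmallZeros

variable {a b c : ℕ}

theorem exists_root {m : ℕ} {e : ℤ} (h : IsSquare (e : ZMod m)) : ∃ r : ℤ, (m : ℤ) ∣ r ^ 2 - e := by
  obtain ⟨s, hs⟩ := h
  obtain ⟨r, rfl⟩ := ZMod.intCast_surjective s
  exact ⟨r, by rw [← ZMod.intCast_zmod_eq_zero_iff_dvd, Int.cast_sub, Int.cast_pow, hs, pow_two,
    sub_self]⟩

theorem exists_primitive_sol {A B C : ℤ} (hA : 0 < A) (hB : 0 < B) (hC : Squarefree C)
    (h : ∃ x y z, Sol A B C x y z) : ∃ x y z, Sol A B C x y z ∧ IsCoprime x y := by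
  classical
  have hex : ∃ s : ℕ, ∃ x y z, Sol A B C x y z ∧ z.natAbs = s := by
    obtain ⟨x, y, z, hs⟩ := h
    exact ⟨_, x, y, z, hs, rfl⟩
  obtain ⟨x, y, z, hs, hzs⟩ := Nat.find_spec hex
  refine ⟨x, y, z, hs, by_contra fun hxy => ?_⟩
  have hne : ¬(x = 0 ∧ y = 0) := by
    rintro ⟨rfl, rfl⟩
    have h1 := hs.1
    simp [hC.ne_zero, hs.z_ne_zero hA hB] at h1
  obtain ⟨p, hp, hpx, hpy⟩ : ∃ p : ℤ, Prime p ∧ p ∣ x ∧ p ∣ y := by
    by_contra hnone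
    push Not at hnone
    exact hxy (isCoprime_of_prime_dvd hne fun p hp hpx hpy => hnone p hp hpx hpy)
  obtain ⟨x', rfl⟩ := hpx
  obtain ⟨y', rfl⟩ := hpy
  obtain ⟨z', rfl⟩ : p ∣ z := dvd_of_sq_dvd_sq_mul hp hC
    ⟨A * x' ^ 2 + B * y' ^ 2, by rw [← hs.1]; ring⟩
  have he : A * x' ^ 2 + B * y' ^ 2 = C * z' ^ 2 := by
    refine mul_left_cancel₀ (pow_ne_zero 2 hp.ne_zero) ?_
    linear_combination hs.1
  have hz' : z' ≠ 0 := fun h0 => hs.z_ne_zero hA hB (by simp [h0])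
  have h1 := Nat.find_min' hex ⟨x', y', z', ⟨he, Or.inr (Or.inr hz')⟩, rfl⟩
  rw [Int.natAbs_mul] at hzs
  have h2 : 2 ≤ p.natAbs := (Int.prime_iff_natAbs_prime.1 hp).two_le
  have h3 : 2 * z'.natAbs ≤ p.natAbs * z'.natAbs := Nat.mul_le_mul_right _ h2
  have h4 : 0 < z'.natAbs := Int.natAbs_pos.2 hz'
  omega

theorem isSquare_of_sol {A B C x y z : ℤ} {m : ℕ} (hA : A = m) (hsm : Squarefree A)
    (hAC : IsCoprime A C) (h : A * x ^ 2 + B * y ^ 2 = C * z ^ 2) (hxy : IsCoprime x y) :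
    IsSquare ((B * C : ℤ) : ZMod m) := by
  have hyA : IsCoprime y A := by
    refine isCoprime_of_prime_dvd (fun h0 => hsm.ne_zero h0.2) fun p hp hpy hpA => ?_
    have h1 : p ∣ C * z ^ 2 := by
      rw [← h]
      exact dvd_add (dvd_mul_of_dvd_left hpA _) (dvd_mul_of_dvd_right (dvd_pow hpy two_ne_zero) _)
    have hpz : p ∣ z := by
      rcases hp.dvd_or_dvd h1 with h2 | h2
      · exact absurd (hAC.isUnit_of_dvd' hpA h2) hp.not_unit
      · exact hp.dvd_of_dvd_pow h2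
    have h2 : p ^ 2 ∣ A * x ^ 2 := by
      rw [show A * x ^ 2 = C * z ^ 2 - B * y ^ 2 by linarith]
      exact dvd_sub (dvd_mul_of_dvd_right (pow_dvd_pow_of_dvd hpz 2) _)
        (dvd_mul_of_dvd_right (pow_dvd_pow_of_dvd hpy 2) _)
    exact hp.not_unit (hxy.isUnit_of_dvd' (dvd_of_sq_dvd_sq_mul hp hsm h2) hpy)
  obtain ⟨u, v, huv⟩ := hyA
  refine ⟨((C * z * u : ℤ) : ZMod m), ?_⟩
  have h1 := congrArg (fun t : ℤ => (t : ZMod m)) huv
  have h2 := congrArg (fun t : ℤ => (t : ZMod m)) h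
  have h3 : ((A : ℤ) : ZMod m) = 0 := by rw [hA, Int.cast_natCast, ZMod.natCast_self]
  simp only [Int.cast_add, Int.cast_mul, Int.cast_pow, Int.cast_one, h3, mul_zero, zero_mul,
    zero_add, add_zero] at h1 h2
  simp only [Int.cast_mul]
  linear_combination ((C : ZMod m) * u ^ 2) * h2 +
    (-((B : ZMod m) * C * ((u : ZMod m) * y + 1))) * h1

theorem legendre_necessary (ha : 0 < a) (hb : 0 < b) (hc : 0 < c) (hsa : Squarefree a)
    (hsb : Squarefree b) (hsc : Squarefree c) (hab : a.Coprime b) (hac : a.Coprime c)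
    (hbc : b.Coprime c) (h : ∃ x y z, Sol a b c x y z) :
    IsSquare (((b : ℤ) * c : ℤ) : ZMod a) ∧ IsSquare (((c : ℤ) * a : ℤ) : ZMod b) ∧
      IsSquare ((-((a : ℤ) * b) : ℤ) : ZMod c) := by
  have sa : Squarefree (a : ℤ) := Int.squarefree_natCast.2 hsa
  have sb : Squarefree (b : ℤ) := Int.squarefree_natCast.2 hsb
  have sc : Squarefree (c : ℤ) := Int.squarefree_natCast.2 hsc
  obtain ⟨x, y, z, hs, hxy⟩ :=
    exists_primitive_sol (by exact_mod_cast ha) (by exact_mod_cast hb) sc h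
  have hab' : IsCoprime (a : ℤ) b := Nat.isCoprime_iff_coprime.2 hab
  have hac' : IsCoprime (a : ℤ) c := Nat.isCoprime_iff_coprime.2 hac
  have hbc' : IsCoprime (b : ℤ) c := Nat.isCoprime_iff_coprime.2 hbc
  refine ⟨isSquare_of_sol rfl sa hac' hs.1 hxy, ?_, ?_⟩
  · rw [mul_comm (c : ℤ)]
    exact isSquare_of_sol rfl sb hbc' ((add_comm _ _).trans hs.1) hxy.symm
  · have hzx : IsCoprime z x := by
      refine isCoprime_of_prime_dvd (fun h0 => hs.z_ne_zero (by exact_mod_cast ha)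
        (by exact_mod_cast hb) h0.1) fun p hp hpz hpx => ?_
      have h2 : p ^ 2 ∣ (b : ℤ) * y ^ 2 := by
        rw [show (b : ℤ) * y ^ 2 = c * z ^ 2 - a * x ^ 2 by linarith [hs.1]]
        exact dvd_sub (dvd_mul_of_dvd_right (pow_dvd_pow_of_dvd hpz 2) _)
          (dvd_mul_of_dvd_right (pow_dvd_pow_of_dvd hpx 2) _)
      exact hp.not_unit (hxy.isUnit_of_dvd' hpx (dvd_of_sq_dvd_sq_mul hp sb h2))
    rw [← neg_mul]
    refine isSquare_of_sol (A := (c : ℤ)) (x := z) (y := x) (z := y) rfl sc hbc'.symm ?_ hzx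
    linarith [hs.1]

theorem legendre_sufficient (ha : 0 < a) (hb : 0 < b) (hc : 0 < c) (hsa : Squarefree a)
    (hsb : Squarefree b) (hsc : Squarefree c) (hab : a.Coprime b) (hac : a.Coprime c)
    (hbc : b.Coprime c) (h1 : IsSquare (((b : ℤ) * c : ℤ) : ZMod a))
    (h2 : IsSquare (((c : ℤ) * a : ℤ) : ZMod b)) (h3 : IsSquare ((-((a : ℤ) * b) : ℤ) : ZMod c)) :
    ∃ x y z, Sol a b c x y z := by
  by_cases hone : a = 1 ∧ b = 1
  · obtain ⟨rfl, rfl⟩ := hone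
    obtain ⟨x, y, hxy⟩ := Nat.eq_sq_add_sq_of_isSquare_mod_neg_one (n := c) (by simpa using h3)
    refine ⟨x, y, 1, ?_, Or.inr (Or.inr one_ne_zero)⟩
    have : (c : ℤ) = (x : ℤ) ^ 2 + (y : ℤ) ^ 2 := by exact_mod_cast hxy
    rw [this]
    push_cast
    ring
  obtain ⟨r, hr⟩ := exists_root h1
  obtain ⟨s, hs⟩ := exists_root h2
  obtain ⟨t, ht⟩ := exists_root h3
  obtain ⟨P, hP⟩ : ∃ P, P = Nat.sqrt (b * c) := ⟨_, rfl⟩
  obtain ⟨Q, hQ⟩ : ∃ Q, Q = Nat.sqrt (c * a) := ⟨_, rfl⟩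
  obtain ⟨R, hR⟩ : ∃ R, R = Nat.sqrt (a * b) := ⟨_, rfl⟩
  have hcount : a * (b * c) < (P + 1) * ((Q + 1) * (R + 1)) := by
    have e1 : b * c < (P + 1) ^ 2 := hP ▸ Nat.lt_succ_sqrt' _
    have e2 : c * a < (Q + 1) ^ 2 := hQ ▸ Nat.lt_succ_sqrt' _
    have e3 : a * b < (R + 1) ^ 2 := hR ▸ Nat.lt_succ_sqrt' _
    refine lt_of_pow_lt_pow_left₀ 2 (Nat.zero_le _) ?_
    have e4 : c * a * (a * b) < (Q + 1) ^ 2 * (R + 1) ^ 2 := Nat.mul_lt_mul'' e2 e3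
    have e5 := Nat.mul_lt_mul'' e1 e4
    linarith
  have : NeZero a := ⟨ha.ne'⟩
  have : NeZero b := ⟨hb.ne'⟩
  have : NeZero c := ⟨hc.ne'⟩
  obtain ⟨Φ, hΦ⟩ : ∃ Φ : Fin (P + 1) × Fin (Q + 1) × Fin (R + 1) → ZMod a × ZMod b × ZMod c,
      Φ = fun (p : Fin (P + 1) × Fin (Q + 1) × Fin (R + 1)) =>
        ((((b : ℤ) * (p.2.1 : ℕ) - r * (p.2.2 : ℕ) : ℤ) : ZMod a),
         (((a : ℤ) * (p.1 : ℕ) - s * (p.2.2 : ℕ) : ℤ) : ZMod b),
         (((a : ℤ) * (p.1 : ℕ) - t * (p.2.1 : ℕ) : ℤ) : ZMod c)) := ⟨_, rfl⟩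
  obtain ⟨⟨i, j, k⟩, ⟨i', j', k'⟩, hne, heq⟩ := Fintype.exists_ne_map_eq_of_card_lt Φ (by
    simpa [ZMod.card] using hcount)
  simp only [hΦ, Prod.ext_iff, ZMod.intCast_eq_intCast_iff_dvd_sub] at heq
  obtain ⟨d1, d2, d3⟩ := heq
  obtain ⟨x, hx⟩ : ∃ x : ℤ, x = ((i' : ℕ) : ℤ) - (i : ℕ) := ⟨_, rfl⟩
  obtain ⟨y, hy⟩ : ∃ y : ℤ, y = ((j' : ℕ) : ℤ) - (j : ℕ) := ⟨_, rfl⟩
  obtain ⟨z, hz⟩ : ∃ z : ℤ, z = ((k' : ℕ) : ℤ) - (k : ℕ) := ⟨_, rfl⟩
  have hxyz : x ≠ 0 ∨ y ≠ 0 ∨ z ≠ 0 := by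
    by_contra h0
    push Not at h0
    obtain ⟨hi, hj, hk⟩ := h0
    refine hne ?_
    obtain rfl : i = i' := Fin.ext (by omega)
    obtain rfl : j = j' := Fin.ext (by omega)
    obtain rfl : k = k' := Fin.ext (by omega)
    rfl
  have e1 : (a : ℤ) ∣ b * y - r * z := by
    rw [hy, hz]; exact d1.trans (dvd_of_eq (by ring))
  have e2 : (b : ℤ) ∣ a * x - s * z := by
    rw [hx, hz]; exact d2.trans (dvd_of_eq (by ring))
  have e3 : (c : ℤ) ∣ a * x - t * y := by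
    rw [hx, hy]; exact d3.trans (dvd_of_eq (by ring))
  obtain ⟨f, hf⟩ : ∃ f : ℤ, f = a * x ^ 2 + b * y ^ 2 - c * z ^ 2 := ⟨_, rfl⟩
  have hab' : IsCoprime (a : ℤ) b := Nat.isCoprime_iff_coprime.2 hab
  have hac' : IsCoprime (a : ℤ) c := Nat.isCoprime_iff_coprime.2 hac
  have hbc' : IsCoprime (b : ℤ) c := Nat.isCoprime_iff_coprime.2 hbc
  have fa : (a : ℤ) ∣ f := by
    refine hab'.dvd_of_dvd_mul_left ?_
    rw [show (b : ℤ) * f = a * (b * x ^ 2) + (b * y - r * z) * (b * y + r * z) +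
      (r ^ 2 - b * c) * z ^ 2 by rw [hf]; ring]
    exact dvd_add (dvd_add (dvd_mul_right _ _) (dvd_mul_of_dvd_left e1 _))
      (dvd_mul_of_dvd_left hr _)
  have fb : (b : ℤ) ∣ f := by
    refine hab'.symm.dvd_of_dvd_mul_left ?_
    rw [show (a : ℤ) * f = b * (a * y ^ 2) + (a * x - s * z) * (a * x + s * z) +
      (s ^ 2 - c * a) * z ^ 2 by rw [hf]; ring]
    exact dvd_add (dvd_add (dvd_mul_right _ _) (dvd_mul_of_dvd_left e2 _))
      (dvd_mul_of_dvd_left hs _)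
  have fc : (c : ℤ) ∣ f := by
    refine hac'.symm.dvd_of_dvd_mul_left ?_
    rw [show (a : ℤ) * f = c * (-(a * z ^ 2)) + (a * x - t * y) * (a * x + t * y) +
      (t ^ 2 - -((a : ℤ) * b)) * y ^ 2 by rw [hf]; ring]
    exact dvd_add (dvd_add (dvd_mul_right _ _) (dvd_mul_of_dvd_left e3 _))
      (dvd_mul_of_dvd_left ht _)
  obtain ⟨q, hq⟩ : (a : ℤ) * b * c ∣ f :=
    (hac'.mul_left hbc').mul_dvd (hab'.mul_dvd fa fb) fc
  have bx : x ^ 2 ≤ (b : ℤ) * c := by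
    refine le_trans (sq_le_sq' (a := x) (b := (P : ℤ)) (by omega) (by omega)) ?_
    exact_mod_cast (hP ▸ Nat.sqrt_le' _ : P ^ 2 ≤ b * c)
  have by' : y ^ 2 ≤ (c : ℤ) * a := by
    refine le_trans (sq_le_sq' (a := y) (b := (Q : ℤ)) (by omega) (by omega)) ?_
    exact_mod_cast (hQ ▸ Nat.sqrt_le' _ : Q ^ 2 ≤ c * a)
  have bz : z ^ 2 ≤ (a : ℤ) * b := by
    refine le_trans (sq_le_sq' (a := z) (b := (R : ℤ)) (by omega) (by omega)) ?_
    exact_mod_cast (hR ▸ Nat.sqrt_le' _ : R ^ 2 ≤ a * b)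
  have hM : (0 : ℤ) < a * b * c := by positivity
  have ma : (0 : ℤ) ≤ a := Int.natCast_nonneg a
  have hax := mul_le_mul_of_nonneg_left bx ma
  have hby := mul_le_mul_of_nonneg_left by' (Int.natCast_nonneg b)
  have hcz := mul_le_mul_of_nonneg_left bz (Int.natCast_nonneg c)
  have n1 : (0 : ℤ) ≤ a * x ^ 2 := by positivity
  have n2 : (0 : ℤ) ≤ b * y ^ 2 := by positivity
  have n3 : (0 : ℤ) ≤ c * z ^ 2 := by positivity
  have one_of_sq : ∀ {m : ℕ} {w : ℤ}, Squarefree m → w ^ 2 = m → m = 1 := fun {m w} hsm hw => by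
    have e : w.natAbs * w.natAbs = m := by
      rw [← Int.natAbs_mul, ← pow_two, hw, Int.natAbs_natCast]
    have hu : w.natAbs = 1 := Nat.isUnit_iff.1 (hsm w.natAbs ⟨1, by rw [e, mul_one]⟩)
    rw [← e, hu]
  have q1 : -1 < q := by
    by_contra hq1
    have : (a : ℤ) * b * c * q ≤ a * b * c * (-1) :=
      mul_le_mul_of_nonneg_left (not_lt.1 hq1) hM.le
    have hz2 : z ^ 2 = ((a * b : ℕ) : ℤ) := by
      push_cast
      refine mul_left_cancel₀ (a := (c : ℤ)) (by exact_mod_cast hc.ne') (le_antisymm hcz ?_)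
      linarith
    have := one_of_sq (Nat.squarefree_mul_iff.2 ⟨hab, hsa, hsb⟩) hz2
    exact hone ⟨Nat.eq_one_of_mul_eq_one_right this, Nat.eq_one_of_mul_eq_one_left this⟩
  have q2 : q < 2 := by
    by_contra hq2
    have : (a : ℤ) * b * c * 2 ≤ a * b * c * q := mul_le_mul_of_nonneg_left (not_lt.1 hq2) hM.le
    have hx2 : x ^ 2 = ((b * c : ℕ) : ℤ) := by
      push_cast
      refine mul_left_cancel₀ (a := (a : ℤ)) (by exact_mod_cast ha.ne') (le_antisymm hax ?_)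
      linarith
    have hy2 : y ^ 2 = ((c * a : ℕ) : ℤ) := by
      push_cast
      refine mul_left_cancel₀ (a := (b : ℤ)) (by exact_mod_cast hb.ne') (le_antisymm hby ?_)
      linarith
    have h4 := one_of_sq (Nat.squarefree_mul_iff.2 ⟨hbc, hsb, hsc⟩) hx2
    have h5 := one_of_sq (Nat.squarefree_mul_iff.2 ⟨hac.symm, hsc, hsa⟩) hy2
    exact hone ⟨Nat.eq_one_of_mul_eq_one_left h5, Nat.eq_one_of_mul_eq_one_right h4⟩
  rcases (show q = 0 ∨ q = 1 by omega) with rfl | rfl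
  · exact ⟨x, y, z, by linarith, hxyz⟩
  · refine ⟨x * z + b * y, y * z - a * x, z ^ 2 + a * b, ?_, Or.inr (Or.inr ?_)⟩
    · linear_combination (z ^ 2 + (a : ℤ) * b) * (hq.symm.trans hf).symm
    · have : (0 : ℤ) < a * b := by positivity
      have := sq_nonneg z
      omega

end FA.SmallZeros

end
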