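import Mathlib.Data.Matrix.Mul
import Mathlib.Data.ZMod.Basic
import Mathlib.Data.Nat.Sqrt
import Mathlib.Combinatorics.Pigeonhole
import Mathlib.Data.Fintype.Pigeonhole
import Mathlib.Data.Fintype.BigOperators
import Mathlib.Algebra.Order.BigOperators.Group.Finset
import Mathlib.Algebra.Order.BigOperators.Ring.Finset
import Mathlib.Tactic.Linarith
import Mathlib.Tactic.Ring
import Mathlib.Tactic.LinearCombination
import Mathlib.Tactic.Push

/-!
# Cassels's bound for the smallest zero of a quadratic form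

A zero `a` of largest entry `H` with `H ^ 2 > (3F) ^ (n - 1)` has an integral point `b` of height
below `H` close to its line; the reflection `f(b) a - B(a, b) b` is then a smaller zero.
-/

set_option autoImplicit false

noncomputable section

open Finset Matrix

namespace FA.SmallZeros

variable {n : ℕ} (M : Matrix (Fin n) (Fin n) ℤ)

/-- The form. -/
def qf (x : Fin n → ℤ) : ℤ := ∑ i, ∑ j, M i j * (x i * x j)

/-- Twice its bilinear form. -/
def bil (x y : Fin n → ℤ) : ℤ := ∑ i, ∑ j, M i j * (x i * y j + y i * x j)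

/-- The sum of the absolute values of the coefficients. -/
def size : ℕ := ∑ i, ∑ j, (M i j).natAbs

theorem qf_eq (x : Fin n → ℤ) : x ⬝ᵥ M *ᵥ x = qf M x := by
  simp only [dotProduct, mulVec, qf, mul_sum]
  exact Finset.sum_congr rfl fun i _ => Finset.sum_congr rfl fun j _ => by ring

theorem qf_comb (p q : ℤ) (x y : Fin n → ℤ) :
    qf M (fun i => p * x i + q * y i) = p ^ 2 * qf M x + p * q * bil M x y + q ^ 2 * qf M y := by
  simp only [qf, bil, mul_sum, ← sum_add_distrib]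
  exact Finset.sum_congr rfl fun i _ => Finset.sum_congr rfl fun j _ => by ring

theorem bil_comb (p q : ℤ) (x y : Fin n → ℤ) :
    bil M x (fun i => p * x i + q * y i) = 2 * p * qf M x + q * bil M x y := by
  simp only [qf, bil, mul_sum, ← sum_add_distrib]
  exact Finset.sum_congr rfl fun i _ => Finset.sum_congr rfl fun j _ => by ring

theorem abs_qf_le {x : Fin n → ℤ} {X : ℤ} (hx : ∀ i, |x i| ≤ X) :
    |qf M x| ≤ size M * X ^ 2 := by
  rw [size]
  push_cast
  simp only [sum_mul]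
  refine (abs_sum_le_sum_abs _ _).trans (sum_le_sum fun i _ =>
    (abs_sum_le_sum_abs _ _).trans (sum_le_sum fun j _ => ?_))
  rw [abs_mul, pow_two]
  refine mul_le_mul_of_nonneg_left ?_ (abs_nonneg _)
  rw [abs_mul]
  exact mul_le_mul (hx i) (hx j) (abs_nonneg _) ((abs_nonneg _).trans (hx i))

theorem abs_bil_le {x y : Fin n → ℤ} {X Y : ℤ} (hx : ∀ i, |x i| ≤ X) (hy : ∀ i, |y i| ≤ Y) :
    |bil M x y| ≤ size M * (2 * (X * Y)) := by
  rw [size]
  push_cast
  simp only [sum_mul]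
  refine (abs_sum_le_sum_abs _ _).trans (sum_le_sum fun i _ =>
    (abs_sum_le_sum_abs _ _).trans (sum_le_sum fun j _ => ?_))
  rw [abs_mul]
  refine mul_le_mul_of_nonneg_left ?_ (abs_nonneg _)
  refine (abs_add_le _ _).trans ?_
  rw [abs_mul, abs_mul]
  have hX := (abs_nonneg _).trans (hx i)
  have h1 := mul_le_mul (hx i) (hy j) (abs_nonneg _) hX
  have h2 := mul_le_mul (hx j) (hy i) (abs_nonneg _) hX
  linarith

theorem exists_close {H D : ℕ} (hH : 0 < H) (a : Fin n → ℤ) (i₀ : Fin n)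
    (hDH : D < H) (h : H ^ (n - 1) < H * (D + 1) ^ (n - 1)) :
    ∃ (q : ℕ) (b : Fin n → ℤ), 0 < q ∧ q < H ∧
      ∀ i, i ≠ i₀ → |(q : ℤ) * a i - (H : ℤ) * b i| ≤ D := by
  have : NeZero H := ⟨hH.ne'⟩
  obtain ⟨Φ, hΦ⟩ : ∃ Φ : Fin H × ({i : Fin n // i ≠ i₀} → Fin (D + 1)) →
      ({i : Fin n // i ≠ i₀} → ZMod H),
      Φ = fun (p : Fin H × ({i : Fin n // i ≠ i₀} → Fin (D + 1))) (i : {i : Fin n // i ≠ i₀}) =>
        ((p.1 : ℕ) : ZMod H) * (a i : ZMod H) + ((p.2 i : ℕ) : ZMod H) := ⟨_, rfl⟩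
  obtain ⟨⟨q, v⟩, ⟨q', v'⟩, hne, heq⟩ := Fintype.exists_ne_map_eq_of_card_lt Φ (by
    simpa [Fintype.card_subtype_compl, ZMod.card] using h)
  simp only [hΦ, funext_iff] at heq
  -- the difference of the multipliers, with the larger first
  have key : ∀ (s t : Fin H) (v v' : {i : Fin n // i ≠ i₀} → Fin (D + 1)), (s : ℕ) < (t : ℕ) →
      (∀ i : {i : Fin n // i ≠ i₀}, ((s : ℕ) : ZMod H) * (a i : ZMod H) + ((v i : ℕ) : ZMod H) =
        ((t : ℕ) : ZMod H) * (a i : ZMod H) + ((v' i : ℕ) : ZMod H)) →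
      ∃ (q : ℕ) (b : Fin n → ℤ), 0 < q ∧ q < H ∧
        ∀ i, i ≠ i₀ → |(q : ℤ) * a i - (H : ℤ) * b i| ≤ D := by
    intro s t v v' hst he
    have hex : ∀ i, ∃ z : ℤ, i ≠ i₀ → |(((t : ℕ) - (s : ℕ) : ℕ) : ℤ) * a i - (H : ℤ) * z| ≤ D :=
      fun i => by
      by_cases hi : i = i₀
      · exact ⟨0, fun h => absurd hi h⟩
      have hd : (H : ℤ) ∣ (((t : ℕ) - (s : ℕ) : ℕ) : ℤ) * a i -
          (((v ⟨i, hi⟩ : ℕ) : ℤ) - ((v' ⟨i, hi⟩ : ℕ) : ℤ)) := by
        rw [← ZMod.intCast_zmod_eq_zero_iff_dvd]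
        push_cast [Nat.cast_sub hst.le]
        linear_combination -(he ⟨i, hi⟩)
      obtain ⟨z, hz⟩ := hd
      refine ⟨z, fun _ => ?_⟩
      rw [show (((t : ℕ) - (s : ℕ) : ℕ) : ℤ) * a i - (H : ℤ) * z =
        ((v ⟨i, hi⟩ : ℕ) : ℤ) - ((v' ⟨i, hi⟩ : ℕ) : ℤ) by linarith, abs_le]
      have := (v ⟨i, hi⟩).isLt
      have := (v' ⟨i, hi⟩).isLt
      constructor <;> omega
    choose b hb using hex
    exact ⟨_, b, Nat.sub_pos_of_lt hst, (Nat.sub_le _ _).trans_lt t.isLt, hb⟩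
  rcases lt_trichotomy (q : ℕ) (q' : ℕ) with hlt | he | hlt
  · exact key q q' v v' hlt heq
  · refine absurd ?_ hne
    refine Prod.ext (Fin.ext he) (funext fun i => ?_)
    have h1 := heq i
    simp only [he, add_left_cancel_iff] at h1
    have h2 := (ZMod.natCast_eq_natCast_iff' _ _ H).1 h1
    rw [Nat.mod_eq_of_lt ((Nat.lt_succ_iff.1 (v i).isLt).trans_lt hDH),
      Nat.mod_eq_of_lt ((Nat.lt_succ_iff.1 (v' i).isLt).trans_lt hDH)] at h2
    exact Fin.ext h2
  · exact key q' q v' v hlt fun i => (heq i).symm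

/-- The smaller zero. -/
theorem reflect {a b : Fin n → ℤ} (h : qf M a = 0) :
    qf M (fun i => qf M b * a i + -bil M a b * b i) = 0 := by
  rw [qf_comb, h]
  ring

/-- **Cassels's theorem.** -/
theorem cassels (hM : 0 < size M) (h : ∃ x, x ≠ 0 ∧ qf M x = 0) :
    ∃ x, x ≠ 0 ∧ qf M x = 0 ∧ ∀ i, x i ^ 2 ≤ (3 * (size M : ℤ)) ^ (n - 1) := by
  classical
  have hex : ∃ H : ℕ, ∃ x, x ≠ 0 ∧ qf M x = 0 ∧ univ.sup (fun i => (x i).natAbs) = H := by
    obtain ⟨x, h1, h2⟩ := h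
    exact ⟨_, x, h1, h2, rfl⟩
  obtain ⟨a, ha0, haz, haH⟩ := Nat.find_spec hex
  have hmin : ∀ x, x ≠ 0 → qf M x = 0 → Nat.find hex ≤ univ.sup fun i => (x i).natAbs :=
    fun x h1 h2 => Nat.find_min' hex ⟨x, h1, h2, rfl⟩
  generalize Nat.find hex = H at haH hmin
  refine ⟨a, ha0, haz, ?_⟩
  by_contra hbig
  push Not at hbig
  obtain ⟨j, hj⟩ := hbig
  obtain ⟨i₁, hi₁⟩ := Function.ne_iff.1 ha0
  have hne : (univ : Finset (Fin n)).Nonempty := ⟨i₁, mem_univ _⟩
  obtain ⟨i₀, -, hi₀⟩ := exists_mem_eq_sup univ hne fun i => (a i).natAbs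
  rw [haH] at hi₀
  have hle : ∀ i, |a i| ≤ (H : ℤ) := fun i => by
    rw [Int.abs_eq_natAbs, ← haH]
    exact Int.ofNat_le.2 (Finset.le_sup (f := fun i => (a i).natAbs) (mem_univ i))
  have hH : 0 < H := by
    rw [← haH]
    exact (Int.natAbs_pos.2 hi₁).trans_le
      (Finset.le_sup (f := fun i => (a i).natAbs) (mem_univ i₁))
  have hbigH : (3 * size M) ^ (n - 1) < H ^ 2 := by
    have h1 : ((3 * size M : ℕ) : ℤ) ^ (n - 1) < (H : ℤ) ^ 2 := by
      push_cast
      refine hj.trans_le ?_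
      rw [← sq_abs]
      exact pow_le_pow_left₀ (abs_nonneg _) (hle j) 2
    exact_mod_cast h1
  obtain ⟨D, hD⟩ : ∃ D, D = Nat.sqrt ((H ^ 2 - 1) / (3 * size M)) := ⟨_, rfl⟩
  have hD1 : 3 * size M * D ^ 2 < H ^ 2 := by
    have h1 : D ^ 2 ≤ (H ^ 2 - 1) / (3 * size M) := hD ▸ Nat.sqrt_le' _
    have h2 := (Nat.le_div_iff_mul_le (by positivity)).1 h1
    rw [mul_comm] at h2
    have : 0 < H ^ 2 := by positivity
    omega
  have hD2 : H ^ 2 ≤ 3 * size M * (D + 1) ^ 2 := by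
    have h1 : (H ^ 2 - 1) / (3 * size M) < (D + 1) ^ 2 := hD ▸ Nat.lt_succ_sqrt' _
    have h2 := (Nat.div_lt_iff_lt_mul (by positivity)).1 h1
    rw [mul_comm] at h2
    omega
  have hDH : D < H := by
    by_contra hn
    have h1 : H ^ 2 ≤ D ^ 2 := Nat.pow_le_pow_left (not_lt.1 hn) 2
    have h2 : D ^ 2 ≤ 3 * size M * D ^ 2 := Nat.le_mul_of_pos_left _ (by positivity)
    omega
  have hcount : H ^ (n - 1) < H * (D + 1) ^ (n - 1) := by
    refine lt_of_pow_lt_pow_left₀ 2 (Nat.zero_le _) (lt_of_mul_lt_mul_left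
      (a := (3 * size M) ^ (n - 1)) ?_ (Nat.zero_le _))
    calc (3 * size M) ^ (n - 1) * (H ^ (n - 1)) ^ 2
        < H ^ 2 * (H ^ 2) ^ (n - 1) := by
          rw [← pow_mul H (n - 1) 2, mul_comm (n - 1) 2, pow_mul]
          exact Nat.mul_lt_mul_of_pos_right hbigH (by positivity)
      _ ≤ H ^ 2 * (3 * size M * (D + 1) ^ 2) ^ (n - 1) :=
          Nat.mul_le_mul_left _ (Nat.pow_le_pow_left hD2 _)
      _ = (3 * size M) ^ (n - 1) * (H * (D + 1) ^ (n - 1)) ^ 2 := by
          rw [mul_pow, mul_pow, ← pow_mul, mul_comm 2 (n - 1), pow_mul]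
          ring
  obtain ⟨q, b', hq0, hqH, hb'⟩ := exists_close hH a i₀ hDH hcount
  obtain ⟨e, he1, he2⟩ : ∃ e : ℤ, (H : ℤ) * e = (q : ℤ) * a i₀ ∧ |e| = q := by
    rcases Int.natAbs_eq (a i₀) with h' | h' <;> rw [← hi₀] at h'
    · exact ⟨q, by rw [h']; ring, abs_of_nonneg (Int.natCast_nonneg q)⟩
    · exact ⟨-q, by rw [h']; ring, by rw [abs_neg]; exact abs_of_nonneg (Int.natCast_nonneg q)⟩
  obtain ⟨b, hb⟩ : ∃ b : Fin n → ℤ, b = Function.update b' i₀ e := ⟨_, rfl⟩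
  obtain ⟨d, hd⟩ : ∃ d : Fin n → ℤ, d = fun i => (q : ℤ) * a i + -(H : ℤ) * b i := ⟨_, rfl⟩
  have hdle : ∀ i, |d i| ≤ (D : ℤ) := fun i => by
    rw [hd]
    dsimp only
    rw [neg_mul, ← sub_eq_add_neg, hb]
    by_cases hi : i = i₀
    · rw [hi, Function.update_self, he1, sub_self, abs_zero]
      exact Int.natCast_nonneg D
    · rw [Function.update_of_ne hi]
      exact hb' i hi
  have hble : ∀ i, |b i| ≤ (q : ℤ) := fun i => by
    have h1 : (H : ℤ) * |b i| ≤ (q : ℤ) * H + D := by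
      rw [show (H : ℤ) * |b i| = |(q : ℤ) * a i - d i| by
        rw [hd]; simp [abs_mul]]
      refine (abs_sub _ _).trans (add_le_add ?_ (hdle i))
      rw [abs_mul, Nat.abs_cast]
      exact mul_le_mul_of_nonneg_left (hle i) (Int.natCast_nonneg q)
    refine Int.lt_add_one_iff.1 (lt_of_mul_lt_mul_left (a := (H : ℤ)) ?_ (Int.natCast_nonneg H))
    linarith [(Int.ofNat_lt.2 hDH : (D : ℤ) < H)]
  have hb0 : b ≠ 0 := fun hz => by
    have h1 := congrFun hz i₀
    rw [hb, Function.update_self, Pi.zero_apply] at h1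
    rw [h1, abs_zero] at he2
    omega
  have hqb : qf M b ≠ 0 := fun hz => by
    refine absurd (hmin b hb0 hz) (not_le.2 ((Finset.sup_lt_iff hH).2 fun i _ => ?_))
    have := hble i
    rw [Int.abs_eq_natAbs] at this
    omega
  have hHb : (fun i => (H : ℤ) * b i) = fun i => (q : ℤ) * a i + -1 * d i := by
    funext i
    rw [hd]
    ring
  have e1 : (H : ℤ) * bil M a b = -bil M a d := by
    have h1 : bil M a (fun i => (H : ℤ) * b i) = (H : ℤ) * bil M a b := by
      simp only [bil, mul_sum]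
      exact Finset.sum_congr rfl fun i _ => Finset.sum_congr rfl fun j _ => by ring
    rw [← h1, hHb, bil_comb, haz]
    ring
  have e2 : (H : ℤ) ^ 2 * qf M b = qf M d - (q : ℤ) * bil M a d := by
    have h1 : qf M (fun i => (H : ℤ) * b i) = (H : ℤ) ^ 2 * qf M b := by
      simp only [qf, mul_sum]
      exact Finset.sum_congr rfl fun i _ => Finset.sum_congr rfl fun j _ => by ring
    rw [← h1, hHb, qf_comb, haz]
    ring
  obtain ⟨c, hc⟩ : ∃ c : Fin n → ℤ, c = fun i => qf M b * a i + -bil M a b * b i := ⟨_, rfl⟩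
  have hcval : ∀ i, (H : ℤ) ^ 2 * c i = qf M d * a i - bil M a d * d i := fun i => by
    have h3 : (H : ℤ) * b i = (q : ℤ) * a i + -1 * d i := congrFun hHb i
    rw [hc]
    linear_combination a i * e2 + (-(H : ℤ) * b i) * e1 + bil M a d * h3
  have hclt : ∀ i, (c i).natAbs < H := fun i => by
    have hH' : (0 : ℤ) < H := Int.ofNat_lt.2 hH
    have hD' : 3 * (size M : ℤ) * (D : ℤ) ^ 2 < (H : ℤ) ^ 2 := by exact_mod_cast hD1
    have h1 := abs_qf_le M (x := d) hdle
    have h2 := abs_bil_le M hle hdle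
    have h3 : (H : ℤ) ^ 2 * |c i| < (H : ℤ) ^ 2 * H := by
      rw [show (H : ℤ) ^ 2 * |c i| = |qf M d * a i - bil M a d * d i| by
        rw [← hcval i, abs_mul, abs_of_pos (pow_pos hH' 2)]]
      refine lt_of_le_of_lt ((abs_sub _ _).trans (add_le_add
        ((abs_mul _ _).trans_le (mul_le_mul h1 (hle i) (abs_nonneg _) (by positivity)))
        ((abs_mul _ _).trans_le (mul_le_mul h2 (hdle i) (abs_nonneg _) (by positivity))))) ?_
      have := mul_lt_mul_of_pos_right hD' hH'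
      linarith
    have h4 := lt_of_mul_lt_mul_left h3 (sq_nonneg _)
    rw [Int.abs_eq_natAbs] at h4
    omega
  have hcz : qf M c = 0 := hc ▸ reflect M haz
  have hc0 : c = 0 := by
    by_contra hne'
    exact absurd (hmin c hne' hcz) (not_le.2 ((Finset.sup_lt_iff hH).2 fun i _ => hclt i))
  have hab : (fun i => bil M a b * b i + 0 * a i) = fun i => qf M b * a i + 0 * b i := by
    funext i
    have := congrFun hc0 i
    rw [hc] at this
    simp only [Pi.zero_apply] at this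
    linarith
  have h5 := congrArg (qf M) hab
  rw [qf_comb, qf_comb, haz] at h5
  have h6 : bil M a b = 0 := by
    by_contra hne'
    have : bil M a b ^ 2 * qf M b = 0 := by linarith
    exact hqb ((mul_eq_zero.1 this).resolve_left (pow_ne_zero 2 hne'))
  have h7 := congrFun hab i₁
  simp only [h6, zero_mul, add_zero] at h7
  exact hi₁ ((mul_eq_zero.1 h7.symm).resolve_left hqb)

end FA.SmallZeros

end
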