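import Mathlib.Data.ZMod.Basic
import Mathlib.Algebra.Squarefree.Basic
import Mathlib.Data.Nat.Squarefree
import Mathlib.RingTheory.Int.Basic
import Mathlib.RingTheory.Coprime.Lemmas
import Mathlib.Tactic.Linarith
import Mathlib.Tactic.Ring
import Mathlib.Tactic.LinearCombination
import Mathlib.Tactic.Push

/-!
# Holzer's theorem

Mordell's descent: a solution of `a x² + b y² = c z²` with `z² > a b` gives a smaller one, by the
line through it in a direction `(X, Y, Z)` with `X y - Y x` equal to `c` or `c / 2`.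
-/

set_option autoImplicit false

noncomputable section

namespace FA.SmallZeros

/-- A nontrivial solution of `a x² + b y² = c z²`. -/
def Sol (a b c x y z : ℤ) : Prop :=
  a * x ^ 2 + b * y ^ 2 = c * z ^ 2 ∧ (x ≠ 0 ∨ y ≠ 0 ∨ z ≠ 0)

variable {a b c : ℤ}

theorem Sol.z_ne_zero (ha : 0 < a) (hb : 0 < b) {x y z : ℤ} (h : Sol a b c x y z) : z ≠ 0 := by
  rintro rfl
  obtain ⟨he, hne⟩ := h
  have h1 : 0 ≤ a * x ^ 2 := by positivity
  have h2 : 0 ≤ b * y ^ 2 := by positivity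
  have hx : a * x ^ 2 = 0 := by linarith
  have hy : b * y ^ 2 = 0 := by linarith
  simp [ha.ne', hb.ne'] at hx hy
  simp [hx, hy] at hne

theorem step (ha : 0 < a) (hb : 0 < b) (hc : 0 < c) {x y z k X Y Z δ L : ℤ}
    (hsol : a * x ^ 2 + b * y ^ 2 = c * z ^ 2) (hz : 0 < z) (hbig : a * b < z ^ 2) (hk : k ≠ 0)
    (hδ : 0 < δ) (hX : X * y - Y * x = k) (hL : L = a * X * x + b * Y * y)
    (hN : δ ∣ a * X ^ 2 + b * Y ^ 2 - c * Z ^ 2) (hP : δ ∣ 2 * (L - c * Z * z))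
    (hest : 2 * ((c * z * Z - L) ^ 2 + a * b * k ^ 2) ≤ c * δ * (z ^ 2 + a * b)) :
    ∃ x' y' z', Sol a b c x' y' z' ∧ 0 < z' ∧ z' < z := by
  obtain ⟨N, hN⟩ := hN
  obtain ⟨P, hP⟩ := hP
  refine ⟨N * x - P * X, N * y - P * Y, N * z - P * Z, ⟨?_, ?_⟩, ?_⟩
  · have h1 : δ * δ * (a * (N * x - P * X) ^ 2 + b * (N * y - P * Y) ^ 2 -
        c * (N * z - P * Z) ^ 2) = 0 := by
      have e : ∀ A B C : ℤ, δ * δ * (a * A ^ 2 + b * B ^ 2 - c * C ^ 2) =
          a * (δ * A) ^ 2 + b * (δ * B) ^ 2 - c * (δ * C) ^ 2 := fun A B C => by ring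
      rw [e, show δ * (N * x - P * X) = (δ * N) * x - (δ * P) * X by ring,
        show δ * (N * y - P * Y) = (δ * N) * y - (δ * P) * Y by ring,
        show δ * (N * z - P * Z) = (δ * N) * z - (δ * P) * Z by ring, ← hN, ← hP, hL]
      linear_combination (a * X ^ 2 + b * Y ^ 2 - c * Z ^ 2) ^ 2 * hsol
    exact sub_eq_zero.1 ((mul_eq_zero.1 h1).resolve_left (mul_ne_zero hδ.ne' hδ.ne'))
  all_goals
    have h2 : c * z * δ * (N * z - P * Z) = (c * z * Z - L) ^ 2 + a * b * k ^ 2 := by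
      rw [show c * z * δ * (N * z - P * Z) = c * z * ((δ * N) * z - (δ * P) * Z) by ring,
        ← hN, ← hP,
        ← hX, hL]
      linear_combination (-a * X ^ 2 - b * Y ^ 2) * hsol
    have hpos : 0 < N * z - P * Z := by
      refine pos_of_mul_pos_right ?_ (show 0 ≤ c * z * δ by positivity)
      rw [h2]
      positivity
  · exact Or.inr (Or.inr hpos.ne')
  · refine ⟨hpos, ?_⟩
    have h3 : c * δ * (2 * z * (N * z - P * Z)) < c * δ * (2 * z * z) := by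
      have : c * δ * (z ^ 2 + a * b) < c * δ * (z ^ 2 + z ^ 2) :=
        mul_lt_mul_of_pos_left (by linarith) (by positivity)
      linarith
    exact lt_of_mul_lt_mul_left (lt_of_mul_lt_mul_left h3 (by positivity)) (by positivity)

theorem dvd_of_sq_dvd_sq_mul {p c z : ℤ} (hp : Prime p) (hc : Squarefree c)
    (h : p ^ 2 ∣ c * z ^ 2) : p ∣ z := by
  by_contra hz
  exact hp.not_unit (hc p (by
    rw [← pow_two]
    exact ((hp.coprime_iff_not_dvd.2 hz).pow).dvd_of_dvd_mul_right h))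

variable (ha : 0 < a) (hb : 0 < b) (hc : 0 < c)

include ha hb hc in
/-- **Mordell's descent.** -/
theorem smaller (hsc : Squarefree c) (hbc : IsCoprime b c) {x y z : ℤ}
    (h : Sol a b c x y z) (hz : 0 < z) (hbig : a * b < z ^ 2) :
    ∃ x' y' z', Sol a b c x' y' z' ∧ 0 < z' ∧ z' < z := by
  by_cases hxy : IsCoprime x y
  swap
  · -- a common prime of `x` and `y` divides `z`
    have hne : x ≠ 0 ∨ y ≠ 0 := by
      by_contra h0
      push Not at h0
      have := h.1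
      rw [h0.1, h0.2] at this
      simp [hc.ne', hz.ne'] at this
    obtain ⟨p, hp, hpx, hpy⟩ : ∃ p : ℤ, Prime p ∧ p ∣ x ∧ p ∣ y := by
      by_contra hnone
      push Not at hnone
      exact hxy (isCoprime_of_prime_dvd (fun h0 => by rcases hne with h | h <;> simp [h0] at h)
        fun p hp hpx hpy => hnone p hp hpx hpy)
    obtain ⟨x', rfl⟩ := hpx
    obtain ⟨y', rfl⟩ := hpy
    obtain ⟨z', rfl⟩ : p ∣ z := dvd_of_sq_dvd_sq_mul hp hsc
      ⟨a * x' ^ 2 + b * y' ^ 2, by rw [← h.1]; ring⟩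
    have he : a * x' ^ 2 + b * y' ^ 2 = c * z' ^ 2 := by
      have := h.1
      refine mul_left_cancel₀ (pow_ne_zero 2 hp.ne_zero) ?_
      linear_combination this
    have hz' : z' ≠ 0 := fun h0 => by simp [h0] at hz
    refine ⟨x', y', |z'|, ⟨by rw [sq_abs]; exact he, Or.inr (Or.inr (by simpa using hz'))⟩,
      abs_pos.2 hz', ?_⟩
    have h2 : 2 ≤ |p| := by
      by_contra hlt
      have := hp.not_unit
      rw [Int.isUnit_iff] at this
      have h0 := hp.ne_zero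
      rcases le_or_gt 0 p with h1 | h1
      · rw [abs_of_nonneg h1] at hlt; omega
      · rw [abs_of_neg h1] at hlt; omega
    have : |z'| * 2 ≤ |z'| * |p| := mul_le_mul_of_nonneg_left h2 (abs_nonneg _)
    rw [← abs_mul, mul_comm z' p, abs_of_pos hz] at this
    have := abs_pos.2 hz'
    linarith
  have hsol := h.1
  have hxc : IsCoprime x c := by
    refine isCoprime_of_prime_dvd (fun h0 => hc.ne' h0.2) fun p hp hpx hpc => ?_
    have h1 : p ∣ b * y ^ 2 := by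
      rw [show b * y ^ 2 = c * z ^ 2 - a * x ^ 2 by linarith]
      exact dvd_sub (dvd_mul_of_dvd_left hpc _) (dvd_mul_of_dvd_right (dvd_pow hpx two_ne_zero) _)
    rcases hp.dvd_or_dvd h1 with h2 | h2
    · exact hp.not_unit (hbc.isUnit_of_dvd' h2 hpc)
    · exact hp.not_unit (hxy.isUnit_of_dvd' hpx (hp.dvd_of_dvd_pow h2))
  have hdiv : ∀ {k X Y : ℤ}, k ∣ c → X * y - Y * x = k →
      k ∣ a * X ^ 2 + b * Y ^ 2 ∧ k ∣ a * X * x + b * Y * y := by
    intro k X Y hkc hk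
    obtain ⟨c', hc'⟩ := hkc
    have hxk : IsCoprime k x := (hxc.of_isCoprime_of_dvd_right ⟨c', hc'⟩).symm
    refine ⟨(hxk.pow_right (n := 2)).dvd_of_dvd_mul_left
      ⟨X ^ 2 * c' * z ^ 2 - 2 * b * X * y + b * k, ?_⟩,
      hxk.dvd_of_dvd_mul_left ⟨X * c' * z ^ 2 - b * y, ?_⟩⟩
    · linear_combination X ^ 2 * hsol + X ^ 2 * z ^ 2 * hc' +
        (-b * (Y * x + X * y - k)) * hk
    · linear_combination X * hsol + X * z ^ 2 * hc' + (-b * y) * hk
  obtain ⟨u, v, huv⟩ := hxy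
  have hcz : 0 < c * z := mul_pos hc hz
  rcases Int.emod_two_eq_zero_or_one c with he | ho
  · obtain ⟨k, hk⟩ : (2 : ℤ) ∣ c := Int.dvd_of_emod_eq_zero he
    obtain ⟨X, Y, hXY⟩ : ∃ X Y : ℤ, X * y - Y * x = k := ⟨k * v, -(k * u), by
      linear_combination k * huv⟩
    obtain ⟨L, hL⟩ : ∃ L, L = a * X * x + b * Y * y := ⟨_, rfl⟩
    have hk0 : 0 < k := by omega
    obtain ⟨h1, h2⟩ := hdiv ⟨2, by rw [hk, mul_comm]⟩ hXY
    obtain ⟨Z, hZ1, hZ2⟩ : ∃ Z, 2 * (c * z * Z - L) ≤ c * z ∧ -(c * z) ≤ 2 * (c * z * Z - L) := by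
      refine ⟨(2 * L + c * z) / (2 * (c * z)), ?_, ?_⟩
      all_goals
        have hp : 0 < 2 * (c * z) := by linarith
        have h3 := Int.mul_ediv_add_emod (2 * L + c * z) (2 * (c * z))
        have h4 := Int.emod_lt_of_pos (2 * L + c * z) hp
        have h5 := Int.emod_nonneg (2 * L + c * z) hp.ne'
        linarith
    refine step (δ := k) (Z := Z) ha hb hc hsol hz hbig hk0.ne' hk0 hXY hL ?_ ?_ ?_
    · exact dvd_sub h1 (dvd_mul_of_dvd_left ⟨2, by rw [hk, mul_comm]⟩ _)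
    · exact dvd_mul_of_dvd_right (dvd_sub (hL ▸ h2)
        (dvd_mul_of_dvd_left (dvd_mul_of_dvd_left ⟨2, by rw [hk, mul_comm]⟩ _) _)) _
    · have h6 : (2 * (c * z * Z - L)) ^ 2 ≤ (c * z) ^ 2 := sq_le_sq' hZ2 hZ1
      rw [hk] at h6 ⊢
      linarith
  · obtain ⟨X, Y, hXY⟩ : ∃ X Y : ℤ, X * y - Y * x = c := ⟨c * v, -(c * u), by
      linear_combination c * huv⟩
    obtain ⟨L, hL⟩ : ∃ L, L = a * X * x + b * Y * y := ⟨_, rfl⟩
    obtain ⟨h1, h2⟩ := hdiv dvd_rfl hXY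
    obtain ⟨Z, hZ1, hZ2, hpar⟩ : ∃ Z, c * z * Z - L ≤ c * z ∧ -(c * z) ≤ c * z * Z - L ∧
        2 ∣ a * X ^ 2 + b * Y ^ 2 - c * Z ^ 2 := by
      obtain ⟨m, hm⟩ : ∃ m, m = L / (c * z) := ⟨_, rfl⟩
      have h3 := Int.mul_ediv_add_emod L (c * z)
      have h4 := Int.emod_lt_of_pos L hcz
      have h5 := Int.emod_nonneg L hcz.ne'
      rw [← hm] at h3
      by_cases hm2 : 2 ∣ a * X ^ 2 + b * Y ^ 2 - c * m ^ 2
      · exact ⟨m, by linarith, by linarith, hm2⟩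
      · refine ⟨m + 1, by linarith, by linarith, ?_⟩
        obtain ⟨w, hw⟩ : ∃ w, c = 2 * w + 1 := ⟨c / 2, by omega⟩
        have h6 : (a * X ^ 2 + b * Y ^ 2 - c * m ^ 2) % 2 = 1 := by omega
        obtain ⟨s, hs⟩ : ∃ s, a * X ^ 2 + b * Y ^ 2 - c * m ^ 2 = 2 * s + 1 :=
          ⟨(a * X ^ 2 + b * Y ^ 2 - c * m ^ 2) / 2, by omega⟩
        exact ⟨s - c * m - w, by linear_combination hs - hw⟩
    have hcN : c ∣ a * X ^ 2 + b * Y ^ 2 - c * Z ^ 2 := dvd_sub h1 (dvd_mul_right c _)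
    refine step (δ := 2 * c) (Z := Z) ha hb hc hsol hz hbig hc.ne' (by linarith) hXY hL ?_ ?_ ?_
    · obtain ⟨w, hw⟩ : ∃ w, c = 2 * w + 1 := ⟨c / 2, by omega⟩
      exact (IsCoprime.mul_dvd (x := (2 : ℤ)) ⟨-w, 1, by linear_combination hw⟩ hpar hcN)
    · exact mul_dvd_mul_left 2 (dvd_sub (hL ▸ h2)
        (dvd_mul_of_dvd_left (dvd_mul_right c Z) z))
    · have h6 : (c * z * Z - L) ^ 2 ≤ (c * z) ^ 2 := sq_le_sq' hZ2 hZ1
      linarith

include ha hb hc in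
/-- **Holzer's theorem.** -/
theorem holzer (hsc : Squarefree c) (hbc : IsCoprime b c)
    (h : ∃ x y z, Sol a b c x y z) :
    ∃ x y z, Sol a b c x y z ∧ x ^ 2 ≤ b * c ∧ y ^ 2 ≤ c * a ∧ z ^ 2 ≤ a * b := by
  classical
  have hex : ∃ s : ℕ, ∃ x y z, Sol a b c x y z ∧ z.natAbs = s := by
    obtain ⟨x, y, z, hs⟩ := h
    exact ⟨_, x, y, z, hs, rfl⟩
  obtain ⟨x, y, z, hs, hzs⟩ := Nat.find_spec hex
  have hz : z ^ 2 ≤ a * b := by
    by_contra hgt
    push Not at hgt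
    have hne := hs.z_ne_zero ha hb
    obtain ⟨x', y', z', hs', hz', hlt⟩ := smaller ha hb hc hsc hbc
      (x := x) (y := y) (z := |z|) ⟨by rw [sq_abs]; exact hs.1,
        Or.inr (Or.inr (by simpa using hne))⟩
      (abs_pos.2 hne) (by rwa [sq_abs])
    have := Nat.find_min' hex ⟨x', y', z', hs', rfl⟩
    rw [Int.abs_eq_natAbs] at hlt
    omega
  refine ⟨x, y, z, hs, ?_, ?_, hz⟩
  · refine le_of_mul_le_mul_left ?_ ha
    have h1 : c * z ^ 2 ≤ c * (a * b) := mul_le_mul_of_nonneg_left hz hc.le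
    have h2 : 0 ≤ b * y ^ 2 := by positivity
    linarith [hs.1]
  · refine le_of_mul_le_mul_left ?_ hb
    have h1 : c * z ^ 2 ≤ c * (a * b) := mul_le_mul_of_nonneg_left hz hc.le
    have h2 : 0 ≤ a * x ^ 2 := by positivity
    linarith [hs.1]

end FA.SmallZeros

end
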